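import Mathlib
import Fermat.Agent.S41.H41.Transfer

/-!
# S41, unit U2, leaf U2-UQ (helper69): `U_q² = 1` on the common kernel of the two transfers

For `q` prime, `q ∤ N`, and `u : Γ₀(N q) → A` with `beta1 u = 0 = beta2 u`:
`U_q (U_q u) = u`.

Pointwise proof.  Let `w = famCor2 N q none = [q, -b; q N, q a]` (`q a + N b = 1`).  For
`g ∈ Γ₀(N q)` the `famCor2`-system gives `ω g ∈ Γ₀(N q)` with `w g = ω(g) w`, and its cocycle on the
indices `some j` is the cocycle of the `U_q`-system.  Hence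

* `0 = beta2 u (g) = u (ω g) + (U_q u)(g)`;
* `0 = beta1 u (g) = u (g) + ∑ j, u (ω (cocU g j))`, because `{1} ∪ {ρ_j}`, `q ρ_j = w [1 j; 0 q]`,
  is another transversal of `Γ₀(N q) \ Γ₀(N)`;

and `(U_q (U_q u))(g) = ∑ j, (U_q u)(cocU g j) = - ∑ j, u (ω (cocU g j)) = u (g)`.
-/

set_option autoImplicit false

open CongruenceSubgroup
open scoped MatrixGroups
open Fermat.Agent.S16.H75 Fermat.Agent.S41.H41

namespace Fermat.Agent.S41.H69

/-! ### A generic comparison of transversals -/

/-- If the family `ρ` differs from the correspondence system `α` by left multiplication with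
elements of `Γ₂` and a bijection of the index sets, and `ρ k * γ = c k * ρ (σ k)` for a
permutation `σ`, then the sum of `ψ` over the cocycle of `α` at `γ` is the sum of the `ψ (c k)`. -/
theorem sum_coc_eq {Γ₁ Γ₂ : Subgroup SL(2, ℤ)} {ι : Type*} [Fintype ι]
    {α : ι → Matrix (Fin 2) (Fin 2) ℤ} (h : IsCorrSys Γ₁ Γ₂ α) {κ : Type*} [Fintype κ]
    (ρ : κ → Matrix (Fin 2) (Fin 2) ℤ) (π : κ ≃ ι) (t : κ → Γ₂)
    (hρ : ∀ k, ρ k = mat (t k) * α (π k)) (γ : Γ₁) (σ : κ ≃ κ) (c : κ → Γ₂)
    (hc : ∀ k, ρ k * mat γ = mat (c k) * ρ (σ k))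
    {A : Type*} [AddCommGroup A] (ψ : Additive Γ₂ →+ A) :
    ∑ i, ψ (Additive.ofMul (h.coc γ i)) = ∑ k, ψ (Additive.ofMul (c k)) := by
  have key : ∀ k, h.coc γ (π k) = (t k)⁻¹ * c k * t (σ k) := by
    intro k
    refine (h.unique (i' := π (σ k)) ?_).2
    have e := hc k
    rw [hρ k, hρ (σ k), Matrix.mul_assoc] at e
    have e' := congrArg (fun M => mat (t k)⁻¹ * M) e
    simp only [← Matrix.mul_assoc, mat_inv_mul, Matrix.one_mul] at e'
    rw [e', mat_mul, mat_mul]
  rw [← Equiv.sum_comp π (fun i => ψ (Additive.ofMul (h.coc γ i)))]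
  simp only [key, ofMul_mul, ofMul_inv, map_add, map_neg, Finset.sum_add_distrib,
    Finset.sum_neg_distrib]
  have h2 : ∑ k, ψ (Additive.ofMul (t (σ k))) = ∑ k, ψ (Additive.ofMul (t k)) :=
    Equiv.sum_comp σ (fun k => ψ (Additive.ofMul (t k)))
  rw [h2]
  abel

/-! ### The second transversal `{1} ∪ {ρ_j}` of `Γ₀(N q) \ Γ₀(N)` -/

/-- `1` and `ρ_j = [1, j - b; N, N j + q a]`, where `q a + N b = 1`. -/
noncomputable def rhoFam (N q : ℕ) : Option (Fin q) → Matrix (Fin 2) (Fin 2) ℤ
  | none => 1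
  | some j => !![1, ((j : ℕ) : ℤ) - Int.gcdB q N;
      (N : ℤ), (N : ℤ) * ((j : ℕ) : ℤ) + (q : ℤ) * Int.gcdA q N]

variable {N q : ℕ}

/-- `w * [1 j; 0 q] = q • ρ_j`. -/
theorem famCor2_none_mul_alphaFin (j : Fin q) :
    famCor2 N q none * alphaFin q j = (q : ℤ) • rhoFam N q (some j) := by
  ext i k
  fin_cases i <;> fin_cases k <;>
    simp [famCor2, alphaFin, rhoFam, Matrix.mul_apply, Fin.sum_univ_two, Matrix.smul_apply] <;>
    ring

theorem det_rhoFam (hq : q.Prime) (hqN : ¬ q ∣ N) (k : Option (Fin q)) :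
    (rhoFam N q k).det = 1 := by
  cases k with
  | none => simp [rhoFam]
  | some j =>
    rw [rhoFam, Matrix.det_fin_two_of]
    linear_combination gcd_ab_eq_one hq hqN

theorem rhoFam_10_dvd (k : Option (Fin q)) : (N : ℤ) ∣ rhoFam N q k 1 0 := by
  cases k with
  | none => simp [rhoFam]
  | some j => simp [rhoFam]

theorem not_dvd_one {q : ℕ} (hq : q.Prime) : ¬ (q : ℤ) ∣ 1 := by
  intro hdvd
  have := Int.le_of_dvd one_pos hdvd
  have := hq.two_le
  omega

/-- The `ρ_k` lie in pairwise different cosets of `Γ₀(N q)`. -/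
theorem rhoFam_uniq (hq : q.Prime) (hqN : ¬ q ∣ N) (k k' : Option (Fin q))
    (g : Gamma0 (N * q)) (h : rhoFam N q k = mat g * rhoFam N q k') : k = k' := by
  have hN0 : (N : ℤ) ≠ 0 := natCast_ne_zero_of_not_dvd hqN
  have hab := gcd_ab_eq_one hq hqN
  have hq1 := not_dvd_one hq
  obtain ⟨s, hs⟩ : ((N : ℤ) * (q : ℤ)) ∣ mat g 1 0 := by
    have := Fermat.Agent.S41.H15.dvd_mat_10 g
    push_cast at this
    exact this
  have hdet := Fermat.Agent.S41.H15.det_mat g
  have e10 := congrFun (congrFun h 1) 0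
  have e11 := congrFun (congrFun h 1) 1
  rw [Matrix.mul_apply, Fin.sum_univ_two] at e10 e11
  cases k with
  | none =>
    cases k' with
    | none => rfl
    | some j' =>
      exfalso
      simp [rhoFam] at e10
      -- `0 = g₁₀ + g₁₁ N`, `g₁₀ = N q s`: `g₁₁ = - q s`
      have h2 : (N : ℤ) * mat g 1 1 = (N : ℤ) * (-(q : ℤ) * s) := by
        rw [hs] at e10
        linear_combination -e10
      have h3 := mul_left_cancel₀ hN0 h2
      apply hq1
      refine ⟨-(mat g 0 0 * s) - mat g 0 1 * N * s, ?_⟩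
      rw [hs, h3] at hdet
      linear_combination -hdet
  | some j =>
    cases k' with
    | none =>
      exfalso
      simp [rhoFam] at e10
      -- `N = g₁₀ = N q s`
      have h2 : (N : ℤ) * 1 = (N : ℤ) * ((q : ℤ) * s) := by
        rw [hs] at e10
        linear_combination e10
      exact hq1 ⟨s, mul_left_cancel₀ hN0 h2⟩
    | some j' =>
      simp [rhoFam] at e10 e11
      -- `g₁₁ = 1 - q s`
      have h2 : (N : ℤ) * mat g 1 1 = (N : ℤ) * (1 - (q : ℤ) * s) := by
        rw [hs] at e10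
        linear_combination -e10
      have h3 := mul_left_cancel₀ hN0 h2
      rw [hs, h3] at e11
      have hdvd : (q : ℤ) ∣ ((j : ℕ) : ℤ) - ((j' : ℕ) : ℤ) := by
        refine ⟨Int.gcdA q N * (((j : ℕ) : ℤ) - ((j' : ℕ) : ℤ)) - s * Int.gcdB q N, ?_⟩
        linear_combination
          (-(((j : ℕ) : ℤ) - ((j' : ℕ) : ℤ) + (q : ℤ) * s * Int.gcdB q N)) * hab
          + Int.gcdB q N * e11
      have hlt : |((j : ℕ) : ℤ) - ((j' : ℕ) : ℤ)| < q := by
        have h1 := j.2
        have h2 := j'.2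
        rw [abs_lt]
        constructor <;> omega
      have h0 := Int.eq_zero_of_abs_lt_dvd hdvd hlt
      congr 1
      apply Fin.ext
      omega

/-! ### The `famCor2`-system restricted to `Γ₀(N q)` -/

section Main

variable (hq : q.Prime) (hqN : ¬ q ∣ N)

/-- On the indices `some j`, the `famCor2`-system restricted to `Γ₀(N q)` is the `U_q`-system. -/
theorem cor2_some (g : Gamma0 (N * q)) (j : Fin q) :
    (isCorrSys_cor2 hq hqN).perm (inclGamma N q g) (some j) =
        some ((isHeckeSys_U (N := N * q) hq (dvd_mul_left q N)).perm g j) ∧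
      (isCorrSys_cor2 hq hqN).coc (inclGamma N q g) (some j) =
        (isHeckeSys_U (N := N * q) hq (dvd_mul_left q N)).coc g j :=
  (isCorrSys_cor2 hq hqN).unique
    ((isHeckeSys_U (N := N * q) hq (dvd_mul_left q N)).spec g j)

/-- The index `none` is fixed by `Γ₀(N q)`: `w` normalises `Γ₀(N q)`. -/
theorem cor2_perm_none (g : Gamma0 (N * q)) :
    (isCorrSys_cor2 hq hqN).perm (inclGamma N q g) none = none := by
  cases hk : (isCorrSys_cor2 hq hqN).perm (inclGamma N q g) none with
  | none => rfl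
  | some k =>
    exfalso
    set hU := isHeckeSys_U (N := N * q) hq (dvd_mul_left q N) with hUdef
    have h1 := (cor2_some hq hqN g ((hU.permEquiv g).symm k)).1
    rw [← hUdef, ← IsHeckeSys.permEquiv_apply, Equiv.apply_symm_apply, ← hk] at h1
    have h2 := ((isCorrSys_cor2 hq hqN).permEquiv (inclGamma N q g)).injective h1
    exact Option.some_ne_none _ h2

/-- `ω g`, with `w * g = ω(g) * w`. -/
noncomputable def omega (g : Gamma0 (N * q)) : Gamma0 (N * q) :=
  (isCorrSys_cor2 hq hqN).coc (inclGamma N q g) none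

theorem omega_spec (g : Gamma0 (N * q)) :
    famCor2 N q none * mat g = mat (omega hq hqN g) * famCor2 N q none := by
  have h := (isCorrSys_cor2 hq hqN).spec (inclGamma N q g) none
  rw [cor2_perm_none hq hqN g] at h
  exact h

/-- `ρ_j * g = ω (cocU g j) * ρ_{permU g j}`. -/
theorem rhoFam_some_mul (g : Gamma0 (N * q)) (j : Fin q) :
    rhoFam N q (some j) * mat g =
      mat (omega hq hqN ((isHeckeSys_U (N := N * q) hq (dvd_mul_left q N)).coc g j)) *
        rhoFam N q (some ((isHeckeSys_U (N := N * q) hq (dvd_mul_left q N)).perm g j)) := by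
  set hU := isHeckeSys_U (N := N * q) hq (dvd_mul_left q N) with hUdef
  have hq0 : (q : ℤ) ≠ 0 := by exact_mod_cast hq.ne_zero
  have h1 : alphaFin q j * mat g = mat (hU.coc g j) * alphaFin q (hU.perm g j) := hU.spec g j
  have h2 : (q : ℤ) • (rhoFam N q (some j) * mat g) =
      (q : ℤ) • (mat (omega hq hqN (hU.coc g j)) * rhoFam N q (some (hU.perm g j))) := by
    rw [← Matrix.smul_mul, ← famCor2_none_mul_alphaFin, Matrix.mul_assoc, h1, ← Matrix.mul_assoc,
      omega_spec hq hqN, Matrix.mul_assoc, famCor2_none_mul_alphaFin, Matrix.mul_smul]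
  exact smul_right_injective _ hq0 h2

include hq hqN in
/-- **(E1)** `beta2 u (g) = u (ω g) + (U_q u)(g)` for `g ∈ Γ₀(N q)`. -/
theorem beta2_apply_incl {A : Type*} [AddCommGroup A] (u : Additive (Gamma0 (N * q)) →+ A)
    (g : Gamma0 (N * q)) :
    beta2 N q A u (Additive.ofMul (inclGamma N q g)) =
      u (Additive.ofMul (omega hq hqN g)) +
        (isHeckeSys_U (N := N * q) hq (dvd_mul_left q N)).heckeOp u (Additive.ofMul g) := by
  rw [beta2_eq hq hqN, IsCorrSys.corrOp_apply, Fintype.sum_option, IsHeckeSys.heckeOp_apply]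
  congr 1
  refine Finset.sum_congr rfl fun j _ => ?_
  rw [(cor2_some hq hqN g j).2]

include hq hqN in
/-- **(E2)** `beta1 u (g) = u (g) + ∑ j, u (ω (cocU g j))` for `g ∈ Γ₀(N q)`. -/
theorem beta1_apply_incl {A : Type*} [AddCommGroup A] (u : Additive (Gamma0 (N * q)) →+ A)
    (g : Gamma0 (N * q)) :
    beta1 N q A u (Additive.ofMul (inclGamma N q g)) =
      u (Additive.ofMul g) + ∑ j, u (Additive.ofMul (omega hq hqN
        ((isHeckeSys_U (N := N * q) hq (dvd_mul_left q N)).coc g j))) := by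
  classical
  set hU := isHeckeSys_U (N := N * q) hq (dvd_mul_left q N) with hUdef
  -- decompose the `ρ_k` along the transversal `famCor1`
  have hdec : ∀ k : Option (Fin q), ∃ (i : Option (Fin q)) (t : Gamma0 (N * q)),
      rhoFam N q k = mat t * famCor1 N q i := fun k =>
    exists_cor1_decomp' hq hqN _ (det_rhoFam hq hqN k) (rhoFam_10_dvd k)
  choose π₀ t hρ using hdec
  have hinj : Function.Injective π₀ := by
    intro k k' hkk
    refine rhoFam_uniq hq hqN k k' (t k * (t k')⁻¹) ?_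
    rw [hρ k, hρ k', hkk, mat_mul, Matrix.mul_assoc, ← Matrix.mul_assoc (mat (t k')⁻¹),
      mat_inv_mul, Matrix.one_mul]
  set π : Option (Fin q) ≃ Option (Fin q) :=
    Equiv.ofBijective π₀ (Finite.injective_iff_bijective.1 hinj) with hπ
  set c : Option (Fin q) → Gamma0 (N * q) :=
    fun k => k.elim g (fun j => omega hq hqN (hU.coc g j)) with hc
  have hcrel : ∀ k, rhoFam N q k * mat (inclGamma N q g) =
      mat (c k) * rhoFam N q (Equiv.optionCongr (hU.permEquiv g) k) := by
    intro k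
    cases k with
    | none =>
      show (1 : Matrix (Fin 2) (Fin 2) ℤ) * mat (inclGamma N q g) = mat g * 1
      rw [Matrix.one_mul, Matrix.mul_one, mat_inclGamma]
    | some j =>
      rw [mat_inclGamma]
      exact rhoFam_some_mul hq hqN g j
  rw [beta1_eq hq hqN, IsCorrSys.corrOp_apply,
    sum_coc_eq (isCorrSys_cor1 hq hqN) (rhoFam N q) π t (fun k => hρ k) (inclGamma N q g)
      (Equiv.optionCongr (hU.permEquiv g)) c hcrel u, Fintype.sum_option]
  rfl

end Main

/-- **LEAF U2-UQ**: `U_q² = 1` on the common kernel of the two transfers (statement of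
`U2Spec.lean`, verbatim). -/
theorem heckeHom_q_sq_of_beta_eq_zero (hq : q.Prime) (hqN : ¬ q ∣ N) {A : Type*} [AddCommGroup A]
    (u : Additive (Gamma0 (N * q)) →+ A) (h1 : beta1 N q A u = 0) (h2 : beta2 N q A u = 0) :
    heckeHom (N * q) ⟨q, hq⟩ A (heckeHom (N * q) ⟨q, hq⟩ A u) = u := by
  have hdvd : ((⟨q, hq⟩ : Nat.Primes) : ℕ) ∣ N * q := dvd_mul_left q N
  rw [heckeHom_of_dvd hdvd]
  set hU := isHeckeSys_U (N := N * q) hq (dvd_mul_left q N) with hUdef
  have E1 : ∀ g : Gamma0 (N * q),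
      hU.heckeOp u (Additive.ofMul g) = - u (Additive.ofMul (omega hq hqN g)) := by
    intro g
    have h := beta2_apply_incl hq hqN u g
    rw [h2] at h
    exact eq_neg_of_add_eq_zero_right h.symm
  refine AddMonoidHom.ext fun γ => ?_
  have E2 := beta1_apply_incl hq hqN u (Additive.toMul γ)
  rw [h1] at E2
  show hU.heckeOp (hU.heckeOp u) (Additive.ofMul (Additive.toMul γ)) =
    u (Additive.ofMul (Additive.toMul γ))
  rw [IsHeckeSys.heckeOp_apply]
  simp only [E1, Finset.sum_neg_distrib]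
  rw [← hUdef] at E2
  exact (eq_neg_of_add_eq_zero_left E2.symm).symm

end Fermat.Agent.S41.H69
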